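import Fermat.Agent.S37.II.Defs
import Fermat.Agent.S24.FFBasic
import Fermat.Agent.S24.FFOne
import Fermat.Agent.S18.Chart.Unif
import Fermat.Agent.S18.Abs.Bridge1
import Fermat.Agent.S18.Abs.Bridge2

/-!
# S37 route II, node L2b: unit criterion in the local ring of a regular arithmetic surface
-/

set_option autoImplicit false

noncomputable section

namespace Fermat.Agent.S37.II

open AlgebraicCurve Fermat.Agent.S24 Fermat.Agent.S18 Fermat.Agent.S18.Abs IsLocalRing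

variable {K F : Type*} [Field K] [Field F] [Algebra K F]

variable {A : ValuationSubring K} {ϖ₀ : K} {Ow : ValuationSubring F}

/-- a valuation subring containing the image of `A` and the inverse of the uniformiser contains
the constants. -/
theorem Unit.algebraMap_mem_of_inv_mem (h₀ : IsUnif A ϖ₀) (V : ValuationSubring F)
    (hA : ∀ a ∈ A, algebraMap K F a ∈ V) (hinv : (algebraMap K F ϖ₀)⁻¹ ∈ V) (a : K) :
    algebraMap K F a ∈ V := by
  rcases eq_or_ne a 0 with rfl | ha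
  · rw [map_zero]; exact V.zero_mem
  obtain ⟨n, hn, -⟩ := h₀.exists_zpow a ha
  have hϖ0 : ϖ₀ ≠ 0 := h₀.ne_zero
  have e : a = a / ϖ₀ ^ n * ϖ₀ ^ n := by
    rw [div_mul_cancel₀ _ (zpow_ne_zero n hϖ0)]
  rw [e, map_mul, map_zpow₀]
  refine V.mul_mem _ _ (hA _ hn) ?_
  rcases le_total 0 n with h | h
  · obtain ⟨k, rfl⟩ := Int.eq_ofNat_of_zero_le h
    rw [zpow_natCast]
    exact V.pow_mem (hA _ h₀.mem) k
  · obtain ⟨k, hk⟩ := Int.eq_ofNat_of_zero_le (neg_nonneg.mpr h)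
    have : n = -(k : ℤ) := by omega
    rw [this, zpow_neg, zpow_natCast, ← inv_pow]
    exact V.pow_mem hinv k

/-- **L2b** (unit criterion). -/
theorem exists_unit_of_through [CharZero K] [FF.IsFF1 K F] (h₀ : IsUnif A ϖ₀)
    (hw : IsUnif Ow (algebraMap K F ϖ₀)) {B : Subring F}
    (hB : IsChart Ow (algebraMap K F ϖ₀) B) (hAB : ∀ a ∈ A, algebraMap K F a ∈ B)
    (𝔫 : Ideal B) (h𝔫 : 𝔫.IsMaximal) (hϖ : (⟨_, hB.unif_mem⟩ : B) ∈ 𝔫)
    (u : F) (hu0 : u ≠ 0) (hu : u ∈ Ow) (hu' : u⁻¹ ∈ Ow)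
    (h : ∀ w : Place K F, Through B 𝔫 w → w.ord u = 0) :
    ∃ a b : B, a ∉ 𝔫 ∧ b ∉ 𝔫 ∧ u * (b : F) = (a : F) := by
  classical
  set ϖ : F := algebraMap K F ϖ₀ with hϖdef
  set π : B := ⟨ϖ, hB.unif_mem⟩ with hπ
  have hϖ0 : ϖ ≠ 0 := hw.ne_zero
  have hπ0 : π ≠ 0 := fun h0 => hϖ0 (congrArg Subtype.val h0)
  have : IsNoetherianRing B := hB.noeth
  have : IsFractionRing B F := hB.isFractionRing hw
  have : 𝔫.IsPrime := h𝔫.isPrime
  have hQEP : ∀ b : B, algebraMap B F b / algebraMap B F π ∈ Ow → π ∣ b := by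
    intro b hb
    refine ⟨⟨(b : F) / ϖ, hB.qep b b.2 hb⟩, Subtype.ext ?_⟩
    show (b : F) = ϖ * ((b : F) / ϖ)
    rw [mul_div_cancel₀ _ hϖ0]
  have hBO : ∀ b : B, algebraMap B F b ∈ Ow := fun b => hB.le b b.2
  have hOmax : ∀ y ∈ Ow, y⁻¹ ∉ Ow → y / algebraMap B F π ∈ Ow :=
    fun y hy hy' => hw.div_mem hy hy'
  let R := Localization.subalgebra.ofField F 𝔫.primeCompl 𝔫.primeCompl_le_nonZeroDivisors
  have : IsLocalization.AtPrime R 𝔫 :=
    Localization.subalgebra.isLocalization_ofField F 𝔫.primeCompl 𝔫.primeCompl_le_nonZeroDivisors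
  have : IsLocalRing R := IsLocalization.AtPrime.isLocalRing R 𝔫
  have : IsNoetherianRing R := IsLocalization.isNoetherianRing 𝔫.primeCompl R inferInstance
  have hinjBR : Function.Injective (algebraMap B R) :=
    IsLocalization.injective R 𝔫.primeCompl_le_nonZeroDivisors
  set πR : R := algebraMap B R π with hπR
  have hπR0 : πR ≠ 0 := (map_ne_zero_iff _ hinjBR).2 hπ0
  have hmapπ : algebraMap R F πR = algebraMap B F π := by
    rw [hπR, ← IsScalarTower.algebraMap_apply]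
  have hπRmax : πR ∈ maximalIdeal R :=
    (IsLocalization.AtPrime.to_map_mem_maximal_iff R 𝔫 π).2 hϖ
  have hregR : RegAt πR (maximalIdeal R) := by
    obtain ⟨t, ht, hreg⟩ := hB.regAt 𝔫 h𝔫 hϖ
    have hmax := loc_maximalIdeal_eq π 𝔫 hϖ R ht hreg
    refine ⟨algebraMap B R t, (IsLocalization.AtPrime.to_map_mem_maximal_iff R 𝔫 t).2 ht,
      fun y hy => ⟨1, fun h1 => (maximalIdeal.isMaximal R).ne_top
        ((Ideal.eq_top_iff_one _).2 h1), ?_⟩⟩
    rw [one_mul, ← hmax]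
    exact hy
  have hdiv : DivHyp R πR 0 u := by
    intro V hPIR hVtop hRV hinv
    rw [hmapπ] at hinv
    have hBV : ∀ b : B, (b : F) ∈ V := fun b => by
      have := hRV (algebraMap B R b)
      rwa [← IsScalarTower.algebraMap_apply] at this
    let w : Place K F :=
      ⟨V, Unit.algebraMap_mem_of_inv_mem h₀ V (fun a ha => hBV ⟨_, hAB a ha⟩) hinv, hVtop, hPIR⟩
    have hthr : Through B 𝔫 w := by
      intro b
      have hb0 : 0 ≤ w.ord (b : F) := FF.ord_nonneg_of_mem w (hBV b)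
      refine ⟨hb0, fun hb => ?_⟩
      have hunit : IsUnit (algebraMap B R b) :=
        (IsLocalization.AtPrime.isUnit_to_map_iff R 𝔫 b).2 hb
      obtain ⟨r, hr⟩ := hunit.exists_right_inv
      have hr' : (b : F) * algebraMap R F r = 1 := by
        have := congrArg (algebraMap R F) hr
        rwa [map_mul, map_one, ← IsScalarTower.algebraMap_apply] at this
      have hinvb : (b : F)⁻¹ ∈ V := by
        rw [← eq_inv_of_mul_eq_one_right hr']
        exact hRV r
      have h1 : 0 ≤ w.ord (b : F)⁻¹ := FF.ord_nonneg_of_mem w hinvb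
      rw [Place.ord_inv] at h1
      omega
    have hord := h w hthr
    refine ⟨1, one_ne_zero, ?_, ?_⟩
    · rw [pow_zero, one_mul]
      exact FF.mem_of_ord_nonneg w hord.ge
    · rw [pow_zero, one_mul]
      refine FF.mem_of_ord_nonneg w ?_
      rw [Place.ord_inv, hord, neg_zero]
  obtain ⟨g, a, b, -, ha, hb, e⟩ := exists_local_root' Ow πR hπR0
    (fun r hr => loc_qep Ow π hQEP hBO 𝔫 R r (by rwa [hmapπ] at hr))
    (fun r => loc_mem_O Ow π hQEP hBO hOmax 𝔫 hϖ R r)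
    (fun y hy hy' => by rw [hmapπ]; exact hOmax y hy hy')
    0 u hu0 hu hu' hdiv (maximalIdeal R) hπRmax hregR
  rw [pow_zero, one_mul] at e
  obtain ⟨a', s, rfl⟩ := IsLocalization.exists_mk'_eq 𝔫.primeCompl a
  obtain ⟨b', s', rfl⟩ := IsLocalization.exists_mk'_eq 𝔫.primeCompl b
  rw [IsLocalization.AtPrime.mk'_mem_maximal_iff R 𝔫] at ha hb
  have hmk : ∀ (c : B) (t : 𝔫.primeCompl),
      algebraMap R F (IsLocalization.mk' R c t) = (c : F) / ((t : B) : F) := by
    intro c t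
    have ht0 : ((t : B) : F) ≠ 0 := fun h0 =>
      t.2 ((Subtype.ext h0 : (t : B) = 0) ▸ 𝔫.zero_mem)
    rw [eq_div_iff ht0]
    have := congrArg (algebraMap R F) (IsLocalization.mk'_spec R c t)
    rwa [map_mul, ← IsScalarTower.algebraMap_apply, ← IsScalarTower.algebraMap_apply] at this
  rw [hmk, hmk] at e
  have hs0 : ((s : B) : F) ≠ 0 := fun h0 =>
    s.2 ((Subtype.ext h0 : (s : B) = 0) ▸ 𝔫.zero_mem)
  have hs'0 : ((s' : B) : F) ≠ 0 := fun h0 =>
    s'.2 ((Subtype.ext h0 : (s' : B) = 0) ▸ 𝔫.zero_mem)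
  refine ⟨a' * s', b' * s, ?_, ?_, ?_⟩
  · exact fun hmem => (Ideal.IsPrime.mem_or_mem inferInstance hmem).elim ha s'.2
  · exact fun hmem => (Ideal.IsPrime.mem_or_mem inferInstance hmem).elim hb s.2
  · show u * ((b' : F) * ((s : B) : F)) = (a' : F) * ((s' : B) : F)
    field_simp at e
    linear_combination e

end Fermat.Agent.S37.II

end
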