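import Fermat.Agent.S37.II.Local.Unif
import Fermat.Agent.S37.II.Local.Unit

/-!
# S37 route II, node L2: the local sum formula (proofs: helper224)

`local_sum_aux` is the complete argument, with the conclusions of the nodes L2a (local
uniformiser) and L2b (unit criterion) as hypotheses; `local_sum` plugs them in.
-/

set_option autoImplicit false

noncomputable section

namespace Fermat.Agent.S37.II

open AlgebraicCurve Fermat.Agent.S24 Fermat.Agent.S18

section Aux

variable {F : Type*} [Field F] (V : ValuationSubring F)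

theorem Sum_mem_nonunits_iff (a : F) : a ∈ V.nonunits ↔ a = 0 ∨ a⁻¹ ∉ V := by
  rw [ValuationSubring.mem_nonunits_iff, ← ValuationSubring.valuation_le_one_iff]
  by_cases ha : a = 0
  · simp [ha]
  · have h0 : 0 < V.valuation a := zero_lt_iff.2 ((Valuation.ne_zero_iff _).2 ha)
    rw [map_inv₀, inv_le_one₀ h0, not_le]
    simp [ha]

theorem Sum_div_mem_iff {ϖ : F} (h : IsUnif V ϖ) (y : F) : y / ϖ ∈ V ↔ y ∈ V.nonunits := by
  rw [Sum_mem_nonunits_iff]
  constructor
  · intro hy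
    by_cases hy0 : y = 0
    · exact Or.inl hy0
    · exact Or.inr (h.not_both hy0 hy)
  · rintro (rfl | hy)
    · rw [zero_div]
      exact V.zero_mem
    · exact h.div_mem ((V.mem_or_inv_mem y).resolve_right hy) hy

theorem Sum_val_eq_one {x : F} (hx : x ≠ 0) (h : x ∈ V) (h' : x⁻¹ ∈ V) : V.valuation x = 1 := by
  have h1 := (V.valuation_le_one_iff x).mpr h
  have h2 := (V.valuation_le_one_iff x⁻¹).mpr h'
  have h0 : 0 < V.valuation x := zero_lt_iff.2 ((Valuation.ne_zero_iff _).2 hx)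
  rw [map_inv₀, inv_le_one₀ h0] at h2
  exact le_antisymm h1 h2

theorem Sum_mem_of_val_eq_one {x : F} (h : V.valuation x = 1) : x ∈ V ∧ x⁻¹ ∈ V ∧ x ≠ 0 := by
  refine ⟨(V.valuation_le_one_iff x).mp h.le, (V.valuation_le_one_iff _).mp ?_, ?_⟩
  · rw [map_inv₀, h, inv_one]
  · rintro rfl
    rw [map_zero] at h
    exact zero_ne_one h

theorem Sum_one_ne_zero {x : F} (hx : V.valuation (x - 1) < 1) : x ≠ 0 := by
  rintro rfl
  rw [zero_sub, Valuation.map_neg, map_one] at hx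
  exact lt_irrefl _ hx

theorem Sum_one_mul {x y : F} (hx : V.valuation (x - 1) < 1) (hy : V.valuation (y - 1) < 1) :
    V.valuation (x * y - 1) < 1 := by
  have h1 := (V.mem_principalUnitGroup_iff (Units.mk0 x (Sum_one_ne_zero V hx))).2 hx
  have h2 := (V.mem_principalUnitGroup_iff (Units.mk0 y (Sum_one_ne_zero V hy))).2 hy
  exact (V.mem_principalUnitGroup_iff _).1 (mul_mem h1 h2)

theorem Sum_one_zpow {x : F} (hx : V.valuation (x - 1) < 1) (n : ℤ) :
    V.valuation (x ^ n - 1) < 1 := by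
  have h1 := (V.mem_principalUnitGroup_iff (Units.mk0 x (Sum_one_ne_zero V hx))).2 hx
  have h2 := (V.mem_principalUnitGroup_iff _).1 (zpow_mem h1 n)
  rwa [Units.val_zpow_eq_zpow_val] at h2

theorem Sum_one_val {x : F} (hx : V.valuation (x - 1) < 1) : V.valuation x = 1 := by
  have : x = 1 + (x - 1) := by ring
  rw [this]
  exact (V.valuation.map_add_eq_of_lt_left (by simpa using hx)).trans (map_one _)

theorem Sum_mul_lt {x y : F} (hx : x ∈ V) (hy : V.valuation y < 1) : V.valuation (x * y) < 1 := by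
  rw [map_mul]
  exact lt_of_le_of_lt (mul_le_of_le_one_left' ((V.valuation_le_one_iff _).2 hx)) hy

/-- a product of powers of elements congruent to `t` is congruent to a power of `t`. -/
theorem Sum_prod_zpow {ι : Type*} (t : F) (s : Finset ι) (f : ι → F) (n : ι → ℤ)
    (hf : ∀ i ∈ s, V.valuation (f i / t - 1) < 1) :
    ∃ e : F, V.valuation (e - 1) < 1 ∧ ∏ i ∈ s, f i ^ n i = t ^ (∑ i ∈ s, n i) * e := by
  classical
  induction s using Finset.induction_on with
  | empty => exact ⟨1, by simp, by simp⟩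
  | insert a s ha ih =>
    obtain ⟨e, he, h⟩ := ih (fun i hi => hf i (Finset.mem_insert_of_mem hi))
    have h1 := hf a (Finset.mem_insert_self a s)
    have ht : t ≠ 0 := by
      rintro rfl
      exact Sum_one_ne_zero V h1 (div_zero _)
    refine ⟨(f a / t) ^ n a * e, Sum_one_mul V (Sum_one_zpow V h1 _) he, ?_⟩
    have ht' : t ^ n a ≠ 0 := zpow_ne_zero _ ht
    rw [Finset.prod_insert ha, Finset.sum_insert ha, h, zpow_add₀ ht, div_zpow]
    field_simp

end Aux

section FL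

variable {K F : Type*} [Field K] [Field F] [Algebra K F]

theorem Sum_ord_prod {ι : Type*} (v : Place K F) (s : Finset ι) (f : ι → F)
    (hf : ∀ i ∈ s, f i ≠ 0) : v.ord (∏ i ∈ s, f i) = ∑ i ∈ s, v.ord (f i) := by
  classical
  induction s using Finset.induction_on with
  | empty => simp
  | insert i s hi ih =>
    have hs : ∀ j ∈ s, f j ≠ 0 := fun j hj => hf j (Finset.mem_insert_of_mem hj)
    rw [Finset.prod_insert hi, Finset.sum_insert hi,
      v.ord_mul (hf i (Finset.mem_insert_self i s)) (Finset.prod_ne_zero_iff.2 hs), ih hs]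

variable {A : ValuationSubring K} {ϖ₀ : K} {Ow : ValuationSubring F}

/-- The local sum formula, with the conclusions of L2a and L2b as hypotheses. -/
theorem local_sum_aux (h₀ : IsUnif A ϖ₀)
    (hw : IsUnif Ow (algebraMap K F ϖ₀)) {B : Subring F}
    (hB : IsChart Ow (algebraMap K F ϖ₀) B) (hAB : ∀ a ∈ A, algebraMap K F a ∈ B)
    (𝔫 : Ideal B) (h𝔫 : 𝔫.IsMaximal) (hϖ : (⟨_, hB.unif_mem⟩ : B) ∈ 𝔫)
    (hL2a : ∃ t : B, t ∈ 𝔫 ∧ ∀ w : Place K F, Centered A B 𝔫 w →
      (t : F) / algebraMap K F ϖ₀ ∉ Ow ∧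
      w.ord ((t : F) - algebraMap K F (val w (t : F))) = 1 ∧
      ∀ w' : Place K F, Through B 𝔫 w' →
        0 < w'.ord ((t : F) - algebraMap K F (val w (t : F))) → w' = w)
    (hL2b : ∀ u : F, u ≠ 0 → u ∈ Ow → u⁻¹ ∈ Ow →
      (∀ w : Place K F, Through B 𝔫 w → w.ord u = 0) →
      ∃ a b : B, a ∉ 𝔫 ∧ b ∉ 𝔫 ∧ u * (b : F) = (a : F))
    (s : Finset (Place K F)) (hs : ∀ w ∈ s, Centered A B 𝔫 w)
    (u : F) (hu0 : u ≠ 0) (hu : u ∈ Ow) (hu' : u⁻¹ ∈ Ow)
    (hall : ∀ w : Place K F, Through B 𝔫 w → w.ord u ≠ 0 → w ∈ s) :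
    ∑ w ∈ s, w.ord u = 0 ↔
      ∃ a b : B, a ∉ 𝔫 ∧ b ∉ 𝔫 ∧ (u * (b : F) - (a : F)) / algebraMap K F ϖ₀ ∈ Ow := by
  classical
  obtain ⟨t, ht𝔫, ht⟩ := hL2a
  obtain ⟨p, hp⟩ : ∃ p : Place K F → F,
      ∀ w, p w = (t : F) - algebraMap K F (val w (t : F)) := ⟨_, fun _ => rfl⟩
  simp only [← hp] at ht
  -- elements of `B` which are nonunits of `Ow` lie in `𝔫`
  have hmem𝔫 : ∀ y : B, Ow.valuation (y : F) < 1 → y ∈ 𝔫 := by
    intro y hy
    have h1 : (y : F) / algebraMap K F ϖ₀ ∈ Ow :=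
      (Sum_div_mem_iff Ow hw _).2 ((ValuationSubring.mem_nonunits_iff _).2 hy)
    have h2 : (y : F) / algebraMap K F ϖ₀ ∈ B := hB.qep y y.2 h1
    have h3 : y = (⟨_, hB.unif_mem⟩ : B) * ⟨_, h2⟩ := by
      apply Subtype.ext
      show (y : F) = algebraMap K F ϖ₀ * ((y : F) / algebraMap K F ϖ₀)
      rw [mul_div_cancel₀ _ hw.ne_zero]
    rw [h3]
    exact 𝔫.mul_mem_right _ hϖ
  have hpB : ∀ w ∈ s, p w ∈ B := fun w hw' => by
    rw [hp]
    exact B.sub_mem t.2 (hAB _ ((hs w hw').2.1 t).2)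
  have hp1 : ∀ w ∈ s, w.ord (p w) = 1 := fun w hw' => (ht w (hs w hw')).2.1
  have hp0 : ∀ w ∈ s, p w ≠ 0 := by
    intro w hw' h0
    have := hp1 w hw'
    rw [h0, Place.ord_zero] at this
    exact zero_ne_one this
  have htv : ∀ w ∈ s, Ow.valuation (t : F) = 1 := by
    intro w hw'
    have h1 := (ht w (hs w hw')).1
    have ht0 : (t : F) ≠ 0 := by
      intro h0
      apply h1
      rw [h0, zero_div]
      exact Ow.zero_mem
    have htO : (t : F) ∈ Ow := hB.le _ t.2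
    have : (t : F)⁻¹ ∈ Ow := by
      by_contra hc
      exact h1 (hw.div_mem htO hc)
    exact Sum_val_eq_one Ow ht0 htO this
  have hpt : ∀ w ∈ s, Ow.valuation (p w / (t : F) - 1) < 1 := by
    intro w hw'
    have hv := htv w hw'
    have ht0 : (t : F) ≠ 0 := (Sum_mem_of_val_eq_one Ow hv).2.2
    have h1 : val w (t : F) ∈ A.nonunits := ((hs w hw').2.2 t).1 ht𝔫
    have h2 : val w (t : F) / ϖ₀ ∈ A := (Sum_div_mem_iff A h₀ _).2 h1
    have h3 : algebraMap K F (val w (t : F)) ∈ Ow.nonunits := by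
      rw [← Sum_div_mem_iff Ow hw, ← map_div₀]
      exact hB.le _ (hAB _ h2)
    have h4 : p w / (t : F) - 1 = -(algebraMap K F (val w (t : F))) * (t : F)⁻¹ := by
      rw [hp]
      field_simp
      ring
    rw [h4, map_mul, Valuation.map_neg, map_inv₀, hv, inv_one, mul_one]
    exact (ValuationSubring.mem_nonunits_iff _).1 h3
  have hpv : ∀ w ∈ s, Ow.valuation (p w) = 1 := by
    intro w hw'
    have h1 := Sum_one_val Ow (hpt w hw')
    rwa [map_div₀, htv w hw', div_one] at h1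
  -- the product
  obtain ⟨Pr, hPr⟩ : ∃ Pr : F, Pr = ∏ w ∈ s, p w ^ (w.ord u) := ⟨_, rfl⟩
  have hPr0 : Pr ≠ 0 := by
    rw [hPr]
    exact Finset.prod_ne_zero_iff.2 fun w hw' => zpow_ne_zero _ (hp0 w hw')
  have hPrv : Ow.valuation Pr = 1 := by
    rw [hPr, map_prod]
    exact Finset.prod_eq_one fun w hw' => by rw [map_zpow₀, hpv w hw', one_zpow]
  obtain ⟨e, he, hPre⟩ := Sum_prod_zpow Ow (t : F) s p (fun w => w.ord u) hpt
  rw [← hPr] at hPre
  -- orders of `Pr`
  have hordp : ∀ w' : Place K F, Through B 𝔫 w' → ∀ w ∈ s,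
      w'.ord (p w) = if w = w' then 1 else 0 := by
    intro w' hw' w hws
    split_ifs with h
    · subst h
      exact hp1 w hws
    · have h1 : 0 ≤ w'.ord (p w) := (hw' ⟨p w, hpB w hws⟩).1
      have h2 : ¬ 0 < w'.ord (p w) := fun h3 => h ((ht w (hs w hws)).2.2 w' hw' h3).symm
      omega
  have hordPr : ∀ w' : Place K F, Through B 𝔫 w' → w'.ord Pr = w'.ord u := by
    intro w' hw'
    rw [hPr, Sum_ord_prod w' s _ (fun w hws => zpow_ne_zero _ (hp0 w hws))]
    have h1 : ∀ w ∈ s, w'.ord (p w ^ w.ord u) = if w = w' then w'.ord u else 0 := by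
      intro w hws
      rw [Place.ord_zpow, hordp w' hw' w hws]
      split_ifs with h
      · rw [h, mul_one]
      · rw [mul_zero]
    rw [Finset.sum_congr rfl h1, Finset.sum_ite_eq']
    split_ifs with h
    · rfl
    · by_contra hne
      exact h (hall w' hw' (fun h0 => hne h0.symm))
  -- `u' = u / Pr`
  obtain ⟨u', hu'def⟩ : ∃ u' : F, u' = u / Pr := ⟨_, rfl⟩
  have hu'0 : u' ≠ 0 := by
    rw [hu'def]
    exact div_ne_zero hu0 hPr0
  have huv : Ow.valuation u = 1 := Sum_val_eq_one Ow hu0 hu hu'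
  have hu'v : Ow.valuation u' = 1 := by rw [hu'def, map_div₀, huv, hPrv, div_one]
  obtain ⟨a', b', ha', hb', hab'⟩ := hL2b u' hu'0 (Sum_mem_of_val_eq_one Ow hu'v).1
    (Sum_mem_of_val_eq_one Ow hu'v).2.1 (by
      intro w' hw'
      rw [hu'def, div_eq_mul_inv, w'.ord_mul hu0 (inv_ne_zero hPr0), Place.ord_inv,
        hordPr w' hw', add_neg_cancel])
  have hu_eq : u = u' * ((t : F) ^ (∑ w ∈ s, w.ord u) * e) := by
    rw [← hPre, hu'def, div_mul_cancel₀ _ hPr0]
  constructor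
  · intro hn
    rw [hn, zpow_zero, one_mul] at hu_eq
    refine ⟨a', b', ha', hb', ?_⟩
    rw [Sum_div_mem_iff Ow hw, ValuationSubring.mem_nonunits_iff]
    have h1 : u * (b' : F) - (a' : F) = (a' : F) * (e - 1) := by
      rw [← hab']
      rw [hu_eq]
      ring
    rw [h1]
    exact Sum_mul_lt Ow (hB.le _ a'.2) he
  · rintro ⟨a, b, ha, hb, hab⟩
    by_contra hn
    have hsne : s.Nonempty := by
      by_contra h
      rw [Finset.not_nonempty_iff_eq_empty] at h
      apply hn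
      rw [h, Finset.sum_empty]
    obtain ⟨w₀, hw₀⟩ := hsne
    have hv := htv w₀ hw₀
    have ht0 : (t : F) ≠ 0 := (Sum_mem_of_val_eq_one Ow hv).2.2
    obtain ⟨n, hn_def⟩ : ∃ n : ℤ, n = ∑ w ∈ s, w.ord u := ⟨_, rfl⟩
    rw [← hn_def] at hn hu_eq
    have hX : Ow.valuation (u * (b : F) - (a : F)) < 1 :=
      (ValuationSubring.mem_nonunits_iff _).1 ((Sum_div_mem_iff Ow hw _).1 hab)
    have htn : (t : F) ^ n ∈ Ow := by
      rw [← ValuationSubring.valuation_le_one_iff, map_zpow₀, hv, one_zpow]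
    have hY : Ow.valuation ((a' : F) * b * (t : F) ^ n - a * b') < 1 := by
      have h1 : (a' : F) * b * (t : F) ^ n - a * b' =
          (b' : F) * (u * (b : F) - (a : F)) - ((a' : F) * b * (t : F) ^ n) * (e - 1) := by
        rw [← hab']
        rw [hu_eq]
        ring
      rw [h1]
      exact Valuation.map_sub_lt _ (Sum_mul_lt Ow (hB.le _ b'.2) hX)
        (Sum_mul_lt Ow (Ow.mul_mem _ _ (Ow.mul_mem _ _ (hB.le _ a'.2) (hB.le _ b.2)) htn) he)
    rcases lt_or_gt_of_ne hn with hneg | hpos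
    · obtain ⟨m, hm⟩ := Int.eq_ofNat_of_zero_le (le_of_lt (neg_pos.2 hneg))
      have hm0 : m ≠ 0 := by
        rintro rfl
        simp at hm
        omega
      have hn' : n = -(m : ℤ) := by omega
      have hZ : Ow.valuation ((a' * b - a * b' * t ^ m : B) : F) < 1 := by
        have h1 : ((a' * b - a * b' * t ^ m : B) : F) =
            (t : F) ^ m * ((a' : F) * b * (t : F) ^ n - a * b') := by
          push_cast
          rw [hn', zpow_neg, zpow_natCast]
          field_simp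
        rw [h1]
        exact Sum_mul_lt Ow (Ow.pow_mem (hB.le _ t.2) m) hY
      have h1 := hmem𝔫 _ hZ
      have h2 : a * b' * t ^ m ∈ 𝔫 :=
        𝔫.mul_mem_left _ (𝔫.pow_mem_of_mem ht𝔫 m (Nat.pos_of_ne_zero hm0))
      have h3 : a' * b ∈ 𝔫 := by
        have := 𝔫.add_mem h1 h2
        simpa using this
      rcases h𝔫.isPrime.mem_or_mem h3 with h | h
      exacts [ha' h, hb h]
    · obtain ⟨m, hm⟩ := Int.eq_ofNat_of_zero_le (le_of_lt hpos)
      have hm0 : m ≠ 0 := by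
        rintro rfl
        simp at hm
        omega
      have hZ : Ow.valuation ((a' * b * t ^ m - a * b' : B) : F) < 1 := by
        have h1 : ((a' * b * t ^ m - a * b' : B) : F) =
            (a' : F) * b * (t : F) ^ n - a * b' := by
          push_cast
          rw [hm, zpow_natCast]
        rw [h1]
        exact hY
      have h1 := hmem𝔫 _ hZ
      have h2 : a' * b * t ^ m ∈ 𝔫 :=
        𝔫.mul_mem_left _ (𝔫.pow_mem_of_mem ht𝔫 m (Nat.pos_of_ne_zero hm0))
      have h3 : a * b' ∈ 𝔫 := by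
        have := 𝔫.sub_mem h2 h1
        simpa using this
      rcases h𝔫.isPrime.mem_or_mem h3 with h | h
      exacts [ha h, hb' h]

/-- **L2** (local sum formula). -/
theorem local_sum [CharZero K] [FF.IsFF1 K F] (h₀ : IsUnif A ϖ₀)
    (hw : IsUnif Ow (algebraMap K F ϖ₀)) {B : Subring F}
    (hB : IsChart Ow (algebraMap K F ϖ₀) B) (hAB : ∀ a ∈ A, algebraMap K F a ∈ B)
    (𝔫 : Ideal B) (h𝔫 : 𝔫.IsMaximal) (hϖ : (⟨_, hB.unif_mem⟩ : B) ∈ 𝔫)
    (s : Finset (Place K F)) (hs : ∀ w ∈ s, Centered A B 𝔫 w)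
    (u : F) (hu0 : u ≠ 0) (hu : u ∈ Ow) (hu' : u⁻¹ ∈ Ow)
    (hall : ∀ w : Place K F, Through B 𝔫 w → w.ord u ≠ 0 → w ∈ s) :
    ∑ w ∈ s, w.ord u = 0 ↔
      ∃ a b : B, a ∉ 𝔫 ∧ b ∉ 𝔫 ∧ (u * (b : F) - (a : F)) / algebraMap K F ϖ₀ ∈ Ow :=
  local_sum_aux h₀ hw hB hAB 𝔫 h𝔫 hϖ (exists_local_unif h₀ hw hB hAB 𝔫 h𝔫 hϖ)
    (fun u hu0 hu hu' h => exists_unit_of_through h₀ hw hB hAB 𝔫 h𝔫 hϖ u hu0 hu hu' h)
    s hs u hu0 hu hu' hall

end FL

end Fermat.Agent.S37.II

end
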