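import Fermat.Agent.S37.II.Defs
import Fermat.Agent.S37.Val
import Fermat.Agent.S18.Chart.Unif
import Fermat.Agent.S18.Abs.Bridge1
import Fermat.Agent.S18.Abs.Bridge2
import Fermat.Agent.S18.Abs.PrincipalPrime

/-!
# S37 route II, node L2a: the local uniformiser `t - t(w)` at a rational point of a regular
arithmetic surface
-/

set_option autoImplicit false

noncomputable section

namespace Fermat.Agent.S37.II

open AlgebraicCurve Fermat.Agent.S24 Fermat.Agent.S18 IntermediateField Polynomial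

/-! ## Abstract part: a two-dimensional regular local ring and a horizontal valuation -/
section Abstract

open IsLocalRing Fermat.Agent.S18.Abs

variable {R F : Type*} [CommRing R] [IsDomain R] [IsLocalRing R] [IsNoetherianRing R]
  [Field F] [Algebra R F] [IsFractionRing R F]

/-- `𝔪_R = (π, p)`, `V ⊇ R` a valuation ring `≠ F` in which `π` is a unit and `p` is not: then
`π ∤ p` and the centre of `V` on `R` is `(p)`. -/
theorem Unif.key (π p : R) (hπ : π ∈ maximalIdeal R)
    [IsPrincipalIdealRing (R ⧸ Ideal.span {π})]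
    (hmax : maximalIdeal R = Ideal.span {π, p})
    (V : ValuationSubring F) (hV : V ≠ ⊤) (hRV : ∀ r : R, algebraMap R F r ∈ V)
    (hπV : V.valuation (algebraMap R F π) = 1) (hp : V.valuation (algebraMap R F p) < 1) :
    ¬ π ∣ p ∧ ∀ r : R, p ∣ r ↔ V.valuation (algebraMap R F r) < 1 := by
  classical
  let φ : R →+* V := (algebraMap R F).codRestrict V.toSubring hRV
  obtain ⟨𝔭, h𝔭def⟩ : ∃ 𝔭 : Ideal R, 𝔭 = (maximalIdeal V).comap φ := ⟨_, rfl⟩
  have h𝔭 : 𝔭.IsPrime := by
    rw [h𝔭def]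
    infer_instance
  have hmem : ∀ r : R, r ∈ 𝔭 ↔ V.valuation (algebraMap R F r) < 1 := by
    intro r
    rw [h𝔭def]
    exact V.valuation_lt_one_iff (φ r)
  have hπ𝔭 : π ∉ 𝔭 := by
    rw [hmem, hπV]
    exact lt_irrefl _
  obtain ⟨g, hg, h𝔭g⟩ := prime_principal_of_quotient_pir π hπ 𝔭 hπ𝔭
  have hg0 : g ≠ 0 := by
    rintro rfl
    apply hV
    have h1 : ∀ r : R, r ≠ 0 → V.valuation (algebraMap R F r) = 1 := by
      intro r hr
      have h2 : r ∉ 𝔭 := by
        rw [h𝔭g, Ideal.mem_span_singleton, zero_dvd_iff]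
        exact hr
      rw [hmem, not_lt] at h2
      exact le_antisymm ((V.valuation_le_one_iff _).2 (hRV r)) h2
    rw [eq_top_iff]
    intro y _
    obtain ⟨a, b, hb, rfl⟩ := IsFractionRing.div_surjective (A := R) y
    rw [← V.valuation_le_one_iff, map_div₀, h1 b (nonZeroDivisors.ne_zero hb), div_one]
    exact (V.valuation_le_one_iff _).2 (hRV a)
  have hgm : g ∈ maximalIdeal R := le_maximalIdeal h𝔭.ne_top hg
  have hnd : ¬ π ∣ p := by
    intro hdvd
    have hmax' : maximalIdeal R = Ideal.span {π} := by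
      rw [hmax]
      apply le_antisymm
      · rw [Ideal.span_le]
        rintro x (rfl | rfl)
        · exact Ideal.mem_span_singleton_self _
        · exact Ideal.mem_span_singleton.2 hdvd
      · exact Ideal.span_mono (by simp)
    rw [hmax', Ideal.mem_span_singleton] at hgm
    obtain ⟨g', rfl⟩ := hgm
    have hg' : g' ∈ 𝔭 := (h𝔭.mem_or_mem hg).resolve_left hπ𝔭
    rw [h𝔭g, Ideal.mem_span_singleton] at hg'
    obtain ⟨c, hc⟩ := hg'
    have hg'0 : g' ≠ 0 := right_ne_zero_of_mul hg0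
    have h1 : π * c = 1 := by
      have h2 : g' * (π * c) = g' * 1 := by
        rw [mul_one]
        conv_rhs => rw [hc]
        ring
      exact mul_left_cancel₀ hg'0 h2
    exact (mem_maximalIdeal _).1 hπ (IsUnit.of_mul_eq_one _ h1)
  have hp𝔭 : p ∈ 𝔭 := (hmem p).2 hp
  rw [h𝔭g, Ideal.mem_span_singleton] at hp𝔭
  obtain ⟨h, hh⟩ := hp𝔭
  have hhu : IsUnit h := by
    by_contra hnu
    have h1 : h ∈ maximalIdeal R := (mem_maximalIdeal _).2 hnu
    rw [hmax, Ideal.mem_span_pair] at h1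
    obtain ⟨α, β, hαβ⟩ := h1
    have hu : IsUnit (1 - g * β) := by
      have h2 : g * β ∈ maximalIdeal R := Ideal.mul_mem_right _ _ hgm
      by_contra hnu'
      have h3 : 1 - g * β ∈ maximalIdeal R := (mem_maximalIdeal _).2 hnu'
      have h4 : (1 : R) ∈ maximalIdeal R := by simpa using Ideal.add_mem _ h3 h2
      exact (Ideal.ne_top_iff_one _).1 (maximalIdeal.isMaximal R).ne_top h4
    apply hnd
    obtain ⟨u, hu⟩ := hu
    refine ⟨g * α * ↑u⁻¹, ?_⟩
    have h4 : p * (1 - g * β) = π * (g * α) := by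
      have h5 : p = g * (α * π + β * p) := by rw [hαβ, ← hh]
      linear_combination h5
    rw [← hu] at h4
    calc p = p * ↑u * ↑u⁻¹ := by rw [mul_assoc, Units.mul_inv, mul_one]
      _ = π * (g * α * ↑u⁻¹) := by rw [h4]; ring
  refine ⟨hnd, fun r => ?_⟩
  rw [← hmem, h𝔭g, Ideal.mem_span_singleton, hh]
  exact hhu.mul_right_dvd

/-- if the centre of `V` on `R` is `(p)` then `V = R_(p)`. -/
theorem Unif.mem_iff (p : R) (V : ValuationSubring F) (hRV : ∀ r : R, algebraMap R F r ∈ V)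
    (hp0 : p ≠ 0) (hdvd : ∀ r : R, p ∣ r ↔ V.valuation (algebraMap R F r) < 1) (y : F) :
    y ∈ V ↔ ∃ a b : R, ¬ p ∣ b ∧ y * algebraMap R F b = algebraMap R F a := by
  have hle : ∀ r : R, V.valuation (algebraMap R F r) ≤ 1 := fun r =>
    (V.valuation_le_one_iff _).2 (hRV r)
  have hone : ∀ r : R, ¬ p ∣ r → V.valuation (algebraMap R F r) = 1 := by
    intro r hr
    rw [hdvd, not_lt] at hr
    exact le_antisymm (hle r) hr
  have hplt : V.valuation (algebraMap R F p) < 1 := (hdvd p).1 dvd_rfl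
  have hpF : algebraMap R F p ≠ 0 := by simpa using hp0
  have hvp0 : V.valuation (algebraMap R F p) ≠ 0 := (Valuation.ne_zero_iff _).2 hpF
  have hpnu : ¬ IsUnit p := by
    intro hu
    have h1 : p ∣ 1 := hu.dvd
    rw [hdvd, map_one, map_one] at h1
    exact lt_irrefl _ h1
  constructor
  · intro hy
    obtain ⟨a, b, hb, rfl⟩ := IsFractionRing.div_surjective (A := R) y
    have hb0 : b ≠ 0 := nonZeroDivisors.ne_zero hb
    obtain ⟨n, c, hbc, hc⟩ :
        ∃ (n : ℕ) (c : R), b = p ^ n * c ∧ ¬ p ∣ c := by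
      obtain ⟨c, h1, h2⟩ := (FiniteMultiplicity.of_not_isUnit hpnu hb0).exists_eq_pow_mul_and_not_dvd
      exact ⟨_, c, h1, h2⟩
    have key : ∀ (n : ℕ) (a : R),
        V.valuation (algebraMap R F a) ≤ V.valuation (algebraMap R F p) ^ n → p ^ n ∣ a := by
      intro n
      induction n with
      | zero => intro a _; simp
      | succ n ih =>
        intro a ha
        have h1 : V.valuation (algebraMap R F a) < 1 := by
          refine lt_of_le_of_lt ha ?_
          rw [pow_succ]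
          exact lt_of_le_of_lt (mul_le_of_le_one_left' (pow_le_one' hplt.le n)) hplt
        obtain ⟨a1, rfl⟩ := (hdvd a).2 h1
        rw [map_mul, map_mul, pow_succ'] at ha
        have h2 := le_of_mul_le_mul_left ha (zero_lt_iff.2 hvp0)
        rw [pow_succ']
        exact mul_dvd_mul_left p (ih a1 h2)
    have hc0 : c ≠ 0 := fun h => hc (h ▸ dvd_zero p)
    have hcF : algebraMap R F c ≠ 0 := by simpa using hc0
    have hva : V.valuation (algebraMap R F a) ≤ V.valuation (algebraMap R F p) ^ n := by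
      rw [← V.valuation_le_one_iff, map_div₀, hbc, map_mul, map_mul, hone c hc, mul_one,
        map_pow, map_pow] at hy
      exact (div_le_one₀ (zero_lt_iff.2 (pow_ne_zero n hvp0))).1 hy
    obtain ⟨a', rfl⟩ := key n a hva
    refine ⟨a', c, hc, ?_⟩
    rw [hbc, map_mul, map_mul, map_pow]
    field_simp
  · rintro ⟨a, b, hb, e⟩
    rw [← V.valuation_le_one_iff]
    have h1 : V.valuation y = V.valuation (algebraMap R F a) := by
      rw [← e, map_mul, hone b hb, mul_one]
    rw [h1]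
    exact hle a

end Abstract

/-! ## Places -/
section Places

variable {K F : Type*} [Field K] [Field F] [Algebra K F]

theorem Unif.valuation_lt_one_iff (w : Place K F) (f : F) :
    w.toValuationSubring.valuation f < 1 ↔ f = 0 ∨ 0 < w.ord f := by
  rw [← ValuationSubring.mem_nonunits_iff, ValuationSubring.mem_nonunits_iff_or]
  refine or_congr Iff.rfl ?_
  rw [FF.mem_iff_ord_nonneg, w.ord_inv]
  omega

theorem Unif.val_spec {v : Place K F} (hv : IsRat v) {f : F} (h : 0 ≤ v.ord f) :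
    f = algebraMap K F (val v f) ∨ 0 < v.ord (f - algebraMap K F (val v f)) := by
  have hex := hv f h
  have h1 : val v f = hex.choose := dif_pos hex
  rw [h1]
  exact hex.choose_spec

theorem Unif.through {A : ValuationSubring K} {B : Subring F} {𝔫 : Ideal B} {w : Place K F}
    (h : Centered A B 𝔫 w) : Through B 𝔫 w := by
  intro b
  have h1 := (h.2.1 b).1
  refine ⟨h1, fun hb => ?_⟩
  by_contra hne
  have h2 : 0 < w.ord (b : F) := lt_of_le_of_ne h1 (Ne.symm hne)
  apply hb
  rw [h.2.2 b, val_of_pos h2, ValuationSubring.mem_nonunits_iff, map_zero]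
  exact zero_lt_one

end Places

section FL

open IsLocalRing Fermat.Agent.S18.Abs

variable {K F : Type*} [Field K] [Field F] [Algebra K F]

variable {A : ValuationSubring K} {ϖ₀ : K} {Ow : ValuationSubring F}

/-- **L2a** (local uniformiser). -/
theorem exists_local_unif [CharZero K] [FF.IsFF1 K F] (h₀ : IsUnif A ϖ₀)
    (hw : IsUnif Ow (algebraMap K F ϖ₀)) {B : Subring F}
    (hB : IsChart Ow (algebraMap K F ϖ₀) B) (hAB : ∀ a ∈ A, algebraMap K F a ∈ B)
    (𝔫 : Ideal B) (h𝔫 : 𝔫.IsMaximal) (hϖ : (⟨_, hB.unif_mem⟩ : B) ∈ 𝔫) :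
    ∃ t : B, t ∈ 𝔫 ∧ ∀ w : Place K F, Centered A B 𝔫 w →
      (t : F) / algebraMap K F ϖ₀ ∉ Ow ∧
      w.ord ((t : F) - algebraMap K F (val w (t : F))) = 1 ∧
      ∀ w' : Place K F, Through B 𝔫 w' →
        0 < w'.ord ((t : F) - algebraMap K F (val w (t : F))) → w' = w := by
  classical
  have hfr : IsFractionRing B F := hB.isFractionRing hw
  have hnoeth : IsNoetherianRing B := hB.noeth
  have hprime𝔫 : 𝔫.IsPrime := h𝔫.isPrime
  have hϖ0 : algebraMap K F ϖ₀ ≠ 0 := hw.ne_zero
  have hϖ₀0 : ϖ₀ ≠ 0 := h₀.ne_zero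
  obtain ⟨ϖB, hϖB⟩ : ∃ ϖB : B, ϖB = ⟨_, hB.unif_mem⟩ := ⟨_, rfl⟩
  have hϖBF : (ϖB : F) = algebraMap K F ϖ₀ := by rw [hϖB]
  rw [← hϖB] at hϖ
  have hϖB0 : ϖB ≠ 0 := by
    intro h
    apply hϖ0
    rw [← hϖBF, h]
    rfl
  have hQEP : ∀ b : B, algebraMap B F b / algebraMap B F ϖB ∈ Ow → ϖB ∣ b := by
    intro b hb
    have hb' : (b : F) / algebraMap K F ϖ₀ ∈ Ow := by
      rw [← hϖBF]
      exact hb
    have h1 := hB.qep b b.2 hb'
    refine ⟨⟨_, h1⟩, Subtype.ext ?_⟩
    show (b : F) = (ϖB : F) * ((b : F) / algebraMap K F ϖ₀)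
    rw [hϖBF]
    field_simp
  have hBO : ∀ b : B, algebraMap B F b ∈ Ow := fun b => hB.le b b.2
  have hOmax : ∀ y ∈ Ow, y⁻¹ ∉ Ow → y / algebraMap B F ϖB ∈ Ow := by
    intro y hy hy'
    have h1 := hw.div_mem hy hy'
    rw [← hϖBF] at h1
    exact h1
  let R := Localization.subalgebra.ofField F 𝔫.primeCompl 𝔫.primeCompl_le_nonZeroDivisors
  have hloc : IsLocalization.AtPrime R 𝔫 :=
    Localization.subalgebra.isLocalization_ofField F 𝔫.primeCompl 𝔫.primeCompl_le_nonZeroDivisors
  have hRloc : IsLocalRing R := IsLocalization.AtPrime.isLocalRing R 𝔫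
  have hRn : IsNoetherianRing R := IsLocalization.isNoetherianRing 𝔫.primeCompl R inferInstance
  have hprime : Prime (algebraMap B R ϖB) := loc_prime Ow ϖB hϖB0 hQEP hBO hOmax 𝔫 hϖ R
  have hregAt : RegAt ϖB 𝔫 := by
    rw [hϖB]
    exact hB.regAt 𝔫 h𝔫 (by rw [← hϖB]; exact hϖ)
  obtain ⟨-, hpir⟩ := loc_quotient_pir ϖB 𝔫 hϖ R hprime hregAt
  obtain ⟨t, ht, hreg⟩ := hregAt
  have hmaxt := loc_maximalIdeal_eq ϖB 𝔫 hϖ R ht hreg
  have hπm : algebraMap B R ϖB ∈ maximalIdeal R :=
    (IsLocalization.AtPrime.to_map_mem_maximal_iff R 𝔫 ϖB).2 hϖ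
  have hRV : ∀ w' : Place K F, Through B 𝔫 w' →
      ∀ r : R, algebraMap R F r ∈ w'.toValuationSubring := by
    intro w' hthr r
    obtain ⟨b, s, rfl⟩ := IsLocalization.exists_mk'_eq 𝔫.primeCompl r
    have hs0 : (s : B) ≠ 0 := fun h0 => s.2 (h0 ▸ 𝔫.zero_mem)
    have hsF : algebraMap B F s ≠ 0 := by simpa using hs0
    have e : algebraMap R F (IsLocalization.mk' R b s) =
        algebraMap B F b * (algebraMap B F s)⁻¹ := by
      rw [← div_eq_mul_inv, eq_div_iff hsF, IsScalarTower.algebraMap_apply B R F (s : B),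
        ← map_mul, IsLocalization.mk'_spec, ← IsScalarTower.algebraMap_apply]
    rw [e]
    refine mul_mem (FF.mem_of_ord_nonneg w' (hthr b).1) ?_
    apply FF.mem_of_ord_nonneg
    rw [w'.ord_inv]
    have h1 : w'.ord (((s : B) : B) : F) = 0 := (hthr s).2 s.2
    have h2 : w'.ord (algebraMap B F s) = 0 := h1
    omega
  have hπV : ∀ w' : Place K F,
      w'.toValuationSubring.valuation (algebraMap R F (algebraMap B R ϖB)) = 1 := by
    intro w'
    have e : algebraMap R F (algebraMap B R ϖB) = algebraMap K F ϖ₀ := by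
      rw [← IsScalarTower.algebraMap_apply]
      exact hϖBF
    rw [e]
    refine le_antisymm ((ValuationSubring.valuation_le_one_iff _ _).2 (w'.algebraMap_mem' _)) ?_
    rw [← not_lt, Unif.valuation_lt_one_iff, FF.ord_algebraMap]
    simp [hϖ0]
  refine ⟨t, ht, fun w hc => ?_⟩
  have hthr := Unif.through hc
  obtain ⟨a, ha⟩ : ∃ a : K, a = val w (t : F) := ⟨_, rfl⟩
  rw [← ha]
  have haN : a ∈ A.nonunits := by
    rw [ha]
    exact (hc.2.2 t).1 ht
  have ha' : a / ϖ₀ ∈ A := by
    rcases (ValuationSubring.mem_nonunits_iff_or A).1 haN with h | h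
    · rw [h, zero_div]
      exact A.zero_mem
    · exact h₀.div_mem (ValuationSubring.nonunits_subset haN) h
  obtain ⟨a'B, ha'B⟩ : ∃ a'B : B, (a'B : F) = algebraMap K F (a / ϖ₀) := ⟨⟨_, hAB _ ha'⟩, rfl⟩
  obtain ⟨pB, hpBdef⟩ : ∃ pB : B, pB = t - ϖB * a'B := ⟨_, rfl⟩
  have hpB : (pB : F) = (t : F) - algebraMap K F a := by
    rw [hpBdef]
    push_cast
    rw [hϖBF, ha'B, ← map_mul, mul_div_cancel₀ _ hϖ₀0]
  have hpF : algebraMap R F (algebraMap B R pB) = (t : F) - algebraMap K F a := by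
    rw [← IsScalarTower.algebraMap_apply]
    exact hpB
  have hmax : maximalIdeal R = Ideal.span {algebraMap B R ϖB, algebraMap B R pB} := by
    rw [hmaxt]
    apply le_antisymm
    · rw [Ideal.span_le]
      rintro x (rfl | rfl)
      · exact Ideal.subset_span (by simp)
      · rw [SetLike.mem_coe, Ideal.mem_span_pair]
        refine ⟨algebraMap B R a'B, 1, ?_⟩
        rw [← map_mul, one_mul, ← map_add, hpBdef]
        congr 1
        ring
    · rw [Ideal.span_le]
      rintro x (rfl | rfl)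
      · exact Ideal.subset_span (by simp)
      · rw [SetLike.mem_coe, Ideal.mem_span_pair]
        refine ⟨algebraMap B R (-a'B), 1, ?_⟩
        rw [← map_mul, one_mul, ← map_add, hpBdef]
        congr 1
        ring
  have hplt : w.toValuationSubring.valuation (algebraMap R F (algebraMap B R pB)) < 1 := by
    rw [hpF, Unif.valuation_lt_one_iff, sub_eq_zero, ha]
    exact Unif.val_spec hc.1 (hthr t).1
  obtain ⟨hnd, hdvd⟩ := Unif.key (algebraMap B R ϖB) (algebraMap B R pB) hπm hmax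
    w.toValuationSubring w.ne_top' (hRV w hthr) (hπV w) hplt
  have hp0 : algebraMap B R pB ≠ 0 := fun h => hnd (h ▸ dvd_zero _)
  refine ⟨?_, ?_, ?_⟩
  · intro htO
    apply hnd
    have htO' : algebraMap B F t / algebraMap B F ϖB ∈ Ow := by
      have e : algebraMap B F ϖB = algebraMap K F ϖ₀ := hϖBF
      rw [e]
      exact htO
    obtain ⟨c, hc'⟩ := hQEP t htO'
    refine ⟨algebraMap B R (c - a'B), ?_⟩
    rw [← map_mul, hpBdef, hc']
    congr 1
    ring
  · obtain ⟨ϖw, hϖw⟩ := FF.exists_ord_eq_one w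
    have hϖw0 : ϖw ≠ 0 := FF.ne_zero_of_ord_ne_zero w (by omega)
    have hmemw : ϖw ∈ w.toValuationSubring := FF.mem_of_ord_nonneg w (by omega)
    obtain ⟨x, b, hb, e⟩ := (Unif.mem_iff _ _ (hRV w hthr) hp0 hdvd ϖw).1 hmemw
    rw [hdvd, Unif.valuation_lt_one_iff, not_or, not_lt] at hb
    have hbord : w.ord (algebraMap R F b) = 0 :=
      le_antisymm hb.2 (FF.ord_nonneg_of_mem w (hRV w hthr b))
    have hx : algebraMap B R pB ∣ x := by
      rw [hdvd, ← e, Unif.valuation_lt_one_iff]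
      right
      rw [w.ord_mul hϖw0 hb.1, hϖw, hbord]
      omega
    obtain ⟨x', rfl⟩ := hx
    rw [map_mul, hpF] at e
    have hx'0 : algebraMap R F x' ≠ 0 := by
      intro h
      rw [h, mul_zero] at e
      exact (mul_ne_zero hϖw0 hb.1) e
    have hpne : (t : F) - algebraMap K F a ≠ 0 := by
      rw [← hpF]
      simpa using hp0
    have h1 := congrArg w.ord e
    rw [w.ord_mul hϖw0 hb.1, w.ord_mul hpne hx'0, hϖw, hbord] at h1
    have h2 := FF.ord_nonneg_of_mem w (hRV w hthr x')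
    have h3 : 0 < w.ord ((t : F) - algebraMap K F a) := by
      rw [hpF, Unif.valuation_lt_one_iff] at hplt
      exact hplt.resolve_left hpne
    omega
  · intro w' hthr' hpos
    have hplt' : w'.toValuationSubring.valuation (algebraMap R F (algebraMap B R pB)) < 1 := by
      rw [hpF, Unif.valuation_lt_one_iff]
      exact Or.inr hpos
    obtain ⟨-, hdvd'⟩ := Unif.key (algebraMap B R ϖB) (algebraMap B R pB) hπm hmax
      w'.toValuationSubring w'.ne_top' (hRV w' hthr') (hπV w') hplt'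
    apply Place.ext
    ext y
    rw [Unif.mem_iff _ _ (hRV w' hthr') hp0 hdvd' y, Unif.mem_iff _ _ (hRV w hthr) hp0 hdvd y]

end FL

end Fermat.Agent.S37.II

end
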